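/-
S41 (level raising), PAIR sub-leaf LIFT — abstract core (helper79).  Mathlib only.

* `exists_coboundary`: a function on a finite set whose sums along all closed orbits of a
  permutation `τ` vanish is a `τ`-coboundary `x ↦ m (τ x) - m x`.
* `exists_eq_sub_add_of_sum_eq_zero`: for a finite transitive `G`-set `X` and two generators
  `t, u` of `G`, every `f : X → ℤ` of total sum `0` is of the form
  `x ↦ β (u • x) - β x - ν (t • x) + ν x`  (the cokernel of the map is `ℤ`, torsion-free).
* `exists_lift_of_dvd`: consequently a solution mod `n` of the linear equation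
  `β (u • x) - β x - α (u • x) + α (t • x) - ν (t • x) + ν x = 0` lifts to an exact solution
  over `ℤ` with the same `α` and congruent `β`, `ν`.
-/
import Mathlib

set_option autoImplicit false

namespace Fermat.Agent.S41.H79

/-! ### Coboundaries along a permutation -/

section coboundary

variable {X : Type*} {A : Type*} [AddCommGroup A]

/-- Path independence: if the sums of `f` along closed orbits vanish, then the partial orbit sum
only depends on the end point. -/
theorem sum_range_eq_of_pow_apply_eq (τ : Equiv.Perm X) (f : X → A)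
    (h : ∀ (x : X) (k : ℕ), (τ ^ k) x = x → ∑ i ∈ Finset.range k, f ((τ ^ i) x) = 0)
    (y : X) (a b : ℕ) (hab : (τ ^ a) y = (τ ^ b) y) :
    ∑ i ∈ Finset.range a, f ((τ ^ i) y) = ∑ i ∈ Finset.range b, f ((τ ^ i) y) := by
  have key : ∀ a k : ℕ, (τ ^ a) y = (τ ^ (a + k)) y →
      ∑ i ∈ Finset.range a, f ((τ ^ i) y) = ∑ i ∈ Finset.range (a + k), f ((τ ^ i) y) := by
    intro a k hak
    rw [Finset.sum_range_add]
    have h0 : (τ ^ k) ((τ ^ a) y) = (τ ^ a) y := by
      rw [← Equiv.Perm.mul_apply, ← pow_add, add_comm k a]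
      exact hak.symm
    have h1 := h ((τ ^ a) y) k h0
    have h2 : ∑ i ∈ Finset.range k, f ((τ ^ (a + i)) y) = 0 := by
      rw [← h1]
      refine Finset.sum_congr rfl fun i _ => ?_
      rw [← Equiv.Perm.mul_apply, ← pow_add, add_comm i a]
    rw [h2, add_zero]
  rcases le_total a b with hle | hle
  · obtain ⟨k, rfl⟩ := Nat.exists_eq_add_of_le hle
    exact key a k hab
  · obtain ⟨k, rfl⟩ := Nat.exists_eq_add_of_le hle
    exact (key b k hab.symm).symm

/-- A function whose sums along the closed orbits of a permutation vanish is a coboundary. -/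
theorem exists_coboundary [Finite X] (τ : Equiv.Perm X) (f : X → A)
    (h : ∀ (x : X) (k : ℕ), (τ ^ k) x = x → ∑ i ∈ Finset.range k, f ((τ ^ i) x) = 0) :
    ∃ m : X → A, ∀ x, f x = m (τ x) - m x := by
  classical
  let s : Setoid X := Equiv.Perm.SameCycle.setoid τ
  let r : X → X := fun x => (Quotient.mk s x).out
  have hr : ∀ x, τ.SameCycle (r x) x := fun x => Quotient.mk_out (s := s) x
  have hrτ : ∀ x, r (τ x) = r x := by
    intro x
    have : Quotient.mk s (τ x) = Quotient.mk s x :=
      Quotient.sound (Equiv.Perm.sameCycle_apply_left.mpr (Equiv.Perm.SameCycle.refl τ x))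
    change (Quotient.mk s (τ x)).out = (Quotient.mk s x).out
    rw [this]
  have he : ∀ x, ∃ i : ℕ, (τ ^ i) (r x) = x := fun x => (hr x).exists_nat_pow_eq
  choose e he using he
  refine ⟨fun x => ∑ i ∈ Finset.range (e x), f ((τ ^ i) (r x)), fun x => ?_⟩
  change f x = ∑ i ∈ Finset.range (e (τ x)), f ((τ ^ i) (r (τ x))) -
    ∑ i ∈ Finset.range (e x), f ((τ ^ i) (r x))
  rw [hrτ x]
  have h1 : (τ ^ (e (τ x))) (r x) = (τ ^ (e x + 1)) (r x) := by
    have := he (τ x)
    rw [hrτ x] at this
    rw [this, pow_succ', Equiv.Perm.mul_apply, he x]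
  rw [sum_range_eq_of_pow_apply_eq τ f h (r x) _ _ h1, Finset.sum_range_succ, he x]
  abel

end coboundary

/-! ### Exactness -/

section exact

variable {G : Type*} [Group G] {X : Type*} [MulAction G X]

/-- The subgroup of functions of the form `x ↦ β (u • x) - β x - ν (t • x) + ν x`. -/
def bdryRange (t u : G) : AddSubgroup (X → ℤ) where
  carrier := {f | ∃ β ν : X → ℤ, ∀ x, f x = β (u • x) - β x - ν (t • x) + ν x}
  zero_mem' := ⟨0, 0, fun x => by simp⟩
  add_mem' := by
    rintro f g ⟨β, ν, hf⟩ ⟨β', ν', hg⟩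
    refine ⟨β + β', ν + ν', fun x => ?_⟩
    simp only [Pi.add_apply, hf x, hg x]
    ring
  neg_mem' := by
    rintro f ⟨β, ν, hf⟩
    refine ⟨-β, -ν, fun x => ?_⟩
    simp only [Pi.neg_apply, hf x]
    ring

theorem mem_bdryRange {t u : G} {f : X → ℤ} :
    f ∈ bdryRange (X := X) t u ↔
      ∃ β ν : X → ℤ, ∀ x, f x = β (u • x) - β x - ν (t • x) + ν x := Iff.rfl

open Classical in
/-- Differences of point masses along the action lie in `bdryRange`. -/
theorem single_sub_single_mem (t u : G) (hgen : Subgroup.closure ({t, u} : Set G) = ⊤)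
    (g : G) (z : X) :
    (Pi.single (g • z) (1 : ℤ) - Pi.single z 1 : X → ℤ) ∈ bdryRange (X := X) t u := by
  have hg : g ∈ Subgroup.closure ({t, u} : Set G) := by rw [hgen]; trivial
  induction hg using Subgroup.closure_induction generalizing z with
  | mem x hx =>
    rcases hx with rfl | rfl
    · refine ⟨0, Pi.single (x • z) 1, fun y => ?_⟩
      have : (Pi.single (x • z) (1 : ℤ) : X → ℤ) (x • y) = (Pi.single z (1 : ℤ) : X → ℤ) y := by
        by_cases hyz : y = z
        · subst hyz; simp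
        · rw [Pi.single_eq_of_ne hyz, Pi.single_eq_of_ne]
          exact fun h => hyz (smul_left_cancel x h)
      simp only [Pi.sub_apply, Pi.zero_apply, this]
      ring
    · refine ⟨-Pi.single (x • z) 1, 0, fun y => ?_⟩
      have : (Pi.single (x • z) (1 : ℤ) : X → ℤ) (x • y) = (Pi.single z (1 : ℤ) : X → ℤ) y := by
        by_cases hyz : y = z
        · subst hyz; simp
        · rw [Pi.single_eq_of_ne hyz, Pi.single_eq_of_ne]
          exact fun h => hyz (smul_left_cancel x h)
      simp only [Pi.sub_apply, Pi.zero_apply, Pi.neg_apply, this]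
      ring
  | one => simp
  | mul x y _ _ hx hy =>
    have h1 := hx (y • z)
    have h2 := hy z
    have : (Pi.single ((x * y) • z) (1 : ℤ) - Pi.single z 1 : X → ℤ) =
        (Pi.single (x • y • z) (1 : ℤ) - Pi.single (y • z) 1) +
          (Pi.single (y • z) (1 : ℤ) - Pi.single z 1) := by
      rw [mul_smul]; abel
    rw [this]
    exact AddSubgroup.add_mem _ h1 h2
  | inv x _ hx =>
    have h1 := hx (x⁻¹ • z)
    rw [smul_inv_smul] at h1
    have : (Pi.single (x⁻¹ • z) (1 : ℤ) - Pi.single z 1 : X → ℤ) =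
        -(Pi.single z (1 : ℤ) - Pi.single (x⁻¹ • z) 1) := by abel
    rw [this]
    exact AddSubgroup.neg_mem _ h1

open Classical in
/-- **Exactness**: on a finite transitive `G`-set, with `G` generated by `t` and `u`, every
integer function of total sum `0` is of the form `x ↦ β (u • x) - β x - ν (t • x) + ν x`. -/
theorem exists_eq_sub_add_of_sum_eq_zero [Fintype X] [MulAction.IsPretransitive G X]
    (t u : G) (hgen : Subgroup.closure ({t, u} : Set G) = ⊤) (x₀ : X) (f : X → ℤ)
    (hf : ∑ x, f x = 0) :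
    ∃ β ν : X → ℤ, ∀ x, f x = β (u • x) - β x - ν (t • x) + ν x := by
  rw [← mem_bdryRange]
  have h1 : f = ∑ x, f x • (Pi.single x (1 : ℤ) - Pi.single x₀ 1 : X → ℤ) := by
    have h2 : ∑ x, f x • (Pi.single x (1 : ℤ) - Pi.single x₀ 1 : X → ℤ) =
        ∑ x, (Pi.single x (f x) : X → ℤ) - (∑ x, f x) • (Pi.single x₀ (1 : ℤ) : X → ℤ) := by
      rw [Finset.sum_smul, ← Finset.sum_sub_distrib]
      refine Finset.sum_congr rfl fun x _ => ?_
      rw [smul_sub]
      congr 1
      funext y
      by_cases hyx : y = x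
      · subst hyx; simp
      · simp [Pi.single_eq_of_ne hyx]
    rw [h2, hf, zero_smul, sub_zero, Finset.univ_sum_single]
  rw [h1]
  refine AddSubgroup.sum_mem _ fun x _ => ?_
  obtain ⟨g, rfl⟩ := MulAction.exists_smul_eq G x₀ x
  exact AddSubgroup.zsmul_mem _ (single_sub_single_mem t u hgen g x₀) _

/-- **Lifting lemma.**  If `(α, β₀, ν₀)` solves the equation
`β (u • x) - β x - α (u • x) + α (t • x) - ν (t • x) + ν x = 0` modulo `n`, there is an exact
integral solution `(α, β, ν)` with `β ≡ β₀`, `ν ≡ ν₀` modulo `n`. -/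
theorem exists_lift_of_dvd [Fintype X] [MulAction.IsPretransitive G X]
    (t u : G) (hgen : Subgroup.closure ({t, u} : Set G) = ⊤) (x₀ : X) (n : ℕ)
    (α β₀ ν₀ : X → ℤ)
    (h : ∀ x, (n : ℤ) ∣ β₀ (u • x) - β₀ x - α (u • x) + α (t • x) - ν₀ (t • x) + ν₀ x) :
    ∃ β ν : X → ℤ, (∀ x, (n : ℤ) ∣ β x - β₀ x) ∧ (∀ x, (n : ℤ) ∣ ν x - ν₀ x) ∧
      ∀ x, β (u • x) - β x - α (u • x) + α (t • x) - ν (t • x) + ν x = 0 := by
  set E : X → ℤ := fun x => β₀ (u • x) - β₀ x - α (u • x) + α (t • x) - ν₀ (t • x) + ν₀ x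
    with hE
  have hsum : ∑ x, E x = 0 := by
    have e1 : ∑ x, β₀ (u • x) = ∑ x, β₀ x := Equiv.sum_comp (MulAction.toPerm u) β₀
    have e2 : ∑ x, α (u • x) = ∑ x, α x := Equiv.sum_comp (MulAction.toPerm u) α
    have e3 : ∑ x, α (t • x) = ∑ x, α x := Equiv.sum_comp (MulAction.toPerm t) α
    have e4 : ∑ x, ν₀ (t • x) = ∑ x, ν₀ x := Equiv.sum_comp (MulAction.toPerm t) ν₀
    simp only [hE, Finset.sum_add_distrib, Finset.sum_sub_distrib, e1, e2, e3, e4]
    ring
  let f : X → ℤ := fun x => E x / (n : ℤ)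
  have hfE : ∀ x, (n : ℤ) * f x = E x := fun x => Int.mul_ediv_cancel' (h x)
  have hf : ∑ x, f x = 0 := by
    by_cases hn : n = 0
    · refine Finset.sum_eq_zero fun x _ => ?_
      change E x / (n : ℤ) = 0
      rw [hn]; simp
    · have h3 : (n : ℤ) * ∑ x, f x = 0 := by
        rw [Finset.mul_sum, ← hsum]
        exact Finset.sum_congr rfl fun x _ => hfE x
      rcases mul_eq_zero.mp h3 with h4 | h4
      · exact absurd (by exact_mod_cast h4) hn
      · exact h4
  obtain ⟨β₁, ν₁, h1⟩ := exists_eq_sub_add_of_sum_eq_zero t u hgen x₀ f hf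
  refine ⟨fun x => β₀ x - n * β₁ x, fun x => ν₀ x - n * ν₁ x, fun x => ⟨-β₁ x, by ring⟩,
    fun x => ⟨-ν₁ x, by ring⟩, fun x => ?_⟩
  have h2 := hfE x
  rw [h1 x] at h2
  simp only [hE] at h2
  linarith

end exact

end Fermat.Agent.S41.H79
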