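/-
S41 (level raising), PAIR sub-leaf LIFT (helper79).

`exists_parabolic_int_lift`: for a finite-index subgroup `Γ ≤ SL(2,ℤ)` containing `-1`, every
homomorphism `χ : Γ → ZMod n` which kills the parabolic elements (trace `± 2`) and the elements of
finite order is the reduction mod `n` of a PARABOLIC homomorphism `ψ : Γ → ℤ`.

Proof: in the landed coset model of S16/H97 (`cocOf`, `exists_cocycle`), the induced cocycle of
`χ` is a coboundary along each of `S`, `U = S * T`, `T` (`exists_coboundary`); the three potentials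
satisfy one linear equation mod `n`, which lifts to `ℤ` because the cokernel of the corresponding
integral map is `ℤ` (`exists_lift_of_dvd`); the lifted potentials give an integral cocycle whose
value at `T` is a `T`-coboundary, hence a parabolic homomorphism.
No dimension count and no field is involved: `n` is arbitrary (`n = 3` and elliptic points are
covered).
-/
import Fermat.Prelude.Def_ModularCurve_PeriodMap
import Fermat.Agent.S16.H97.Lift
import Fermat.Agent.S21.H86.Parabolic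
import Fermat.Agent.S41.H79.LiftCore

set_option autoImplicit false

open scoped MatrixGroups
open ModularGroup ModularCurve.Period CongruenceSubgroup
open Fermat.Agent.S16.H97

namespace Fermat.Agent.S41.H79

noncomputable section

variable {Γ : Subgroup SL(2, ℤ)} {A : Type*} [AddCommGroup A]

/-! ### Group-theoretic preliminaries -/

theorem closure_T_U : Subgroup.closure ({T, U} : Set SL(2, ℤ)) = ⊤ := by
  rw [eq_top_iff, ← closure_S_U, Subgroup.closure_le]
  rintro g (rfl | rfl)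
  · have h : S = U * T⁻¹ := by simp [U]
    rw [h]
    exact Subgroup.mul_mem _ (Subgroup.subset_closure (by simp))
      (Subgroup.inv_mem _ (Subgroup.subset_closure (by simp)))
  · exact Subgroup.subset_closure (by simp)

theorem isOfFinOrder_S : IsOfFinOrder (S : SL(2, ℤ)) := by
  refine isOfFinOrder_iff_pow_eq_one.mpr ⟨4, by norm_num, ?_⟩
  rw [show (4 : ℕ) = 2 * 2 from rfl, pow_mul, pow_two S, S_mul_S]
  simp

theorem isOfFinOrder_U : IsOfFinOrder (U : SL(2, ℤ)) := by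
  refine isOfFinOrder_iff_pow_eq_one.mpr ⟨6, by norm_num, ?_⟩
  rw [show (6 : ℕ) = 3 * 2 from rfl, pow_mul, U_cube]
  simp

/-- Conjugates of powers of an element of finite order have finite order in `Γ`. -/
theorem isOfFinOrder_conj_pow {g : SL(2, ℤ)} (hg : IsOfFinOrder g) (r : SL(2, ℤ)) (k : ℕ)
    (h : r⁻¹ * g ^ k * r ∈ Γ) : IsOfFinOrder (⟨r⁻¹ * g ^ k * r, h⟩ : Γ) := by
  obtain ⟨m, hm, hgm⟩ := isOfFinOrder_iff_pow_eq_one.mp (hg.pow (n := k))
  refine isOfFinOrder_iff_pow_eq_one.mpr ⟨m, hm, Subtype.ext ?_⟩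
  have h1 : (r⁻¹ * g ^ k * r) ^ m = r⁻¹ * (g ^ k) ^ m * r := by
    have := conj_pow (a := r⁻¹) (b := g ^ k) (i := m)
    rwa [inv_inv] at this
  change (r⁻¹ * g ^ k * r) ^ m = 1
  rw [h1, hgm, mul_one, inv_mul_cancel]

/-- Conjugates of powers of `T` have trace `2`. -/
theorem trace_conj_T_pow (r : SL(2, ℤ)) (k : ℕ) :
    ((r⁻¹ * T ^ k * r : SL(2, ℤ)) : Matrix (Fin 2) (Fin 2) ℤ).trace = 2 := by
  have h1 : ((r⁻¹ * T ^ k * r : SL(2, ℤ)) : Matrix (Fin 2) (Fin 2) ℤ) =
      (r⁻¹ : SL(2, ℤ)).1 * ((T ^ k : SL(2, ℤ)).1 * r.1) := by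
    rw [mul_assoc]; rfl
  rw [h1, Matrix.trace_mul_comm, Matrix.mul_assoc]
  have h2 : r.1 * (r⁻¹ : SL(2, ℤ)).1 = 1 := by
    have : (r * r⁻¹ : SL(2, ℤ)).1 = 1 := by rw [mul_inv_cancel]; rfl
    exact this
  rw [h2, Matrix.mul_one]
  have h3 := coe_T_zpow (k : ℤ)
  rw [zpow_natCast] at h3
  change ((T ^ k : SL(2, ℤ)) : Matrix (Fin 2) (Fin 2) ℤ).trace = 2
  rw [h3, Matrix.trace_fin_two]
  simp

/-! ### Cocycles which are coboundaries along a cyclic subgroup -/

/-- If `χ` kills all elements of `Γ` which are conjugate to a power of `g`, then the induced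
cocycle at `g` is a coboundary along `g`. -/
theorem exists_coboundary_cocOf [Finite (Cos Γ)] (χ : Additive Γ →+ A) (g : SL(2, ℤ))
    (hg : ∀ (r : SL(2, ℤ)) (k : ℕ) (h : r⁻¹ * g ^ k * r ∈ Γ),
      χ (Additive.ofMul ⟨r⁻¹ * g ^ k * r, h⟩) = 0) :
    ∃ m : Cos Γ → A, ∀ x, cocOf Γ χ g x = m (g • x) - m x := by
  have hpow : ∀ (i : ℕ) (x : Cos Γ),
      ((MulAction.toPerm g : Equiv.Perm (Cos Γ)) ^ i) x = g ^ i • x := by
    intro i
    induction i with
    | zero => intro x; simp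
    | succ i ih =>
      intro x
      rw [pow_succ, Equiv.Perm.mul_apply, ih, MulAction.toPerm_apply, pow_succ, mul_smul]
  obtain ⟨m, hm⟩ := exists_coboundary (MulAction.toPerm g : Equiv.Perm (Cos Γ)) (cocOf Γ χ g) (by
    intro x k hk
    rw [hpow] at hk
    simp only [hpow]
    rw [sum_cocOf_orbit χ g k x hk]
    have hmem : (rep Γ x)⁻¹ * g ^ k * rep Γ x ∈ Γ := by
      have := cocEl_mem (Γ := Γ) (g ^ k) x
      rwa [hk] at this
    rw [ext_of_mem χ hmem]
    exact hg _ k hmem)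
  exact ⟨m, fun x => hm x⟩

/-- A cocycle which is a coboundary at `g` is the same coboundary at all powers of `g`. -/
theorem coc_zpow_of_coboundary {c : SL(2, ℤ) → Cos Γ → A} (hc : IsCoc Γ c) (g : SL(2, ℤ))
    (ν : Cos Γ → A) (hg : ∀ x, c g x = ν (g • x) - ν x) (m : ℤ) (x : Cos Γ) :
    c (g ^ m) x = ν (g ^ m • x) - ν x := by
  have hnat : ∀ (k : ℕ) (x : Cos Γ), c (g ^ k) x = ν (g ^ k • x) - ν x := by
    intro k
    induction k with
    | zero => intro x; simp [hc.one]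
    | succ k ih =>
      intro x
      rw [pow_succ, hc, ih, hg, mul_smul]
      abel
  cases m with
  | ofNat k =>
    rw [Int.ofNat_eq_natCast, zpow_natCast]
    exact hnat k x
  | negSucc k =>
    rw [zpow_negSucc, hc.inv, hnat, smul_inv_smul]
    abel

/-! ### The lifting theorem -/

/-- **LIFT.**  Let `Γ ≤ SL(2,ℤ)` be of finite index with `-1 ∈ Γ`.  Every homomorphism
`χ : Γ → ZMod n` which is parabolic and kills the elements of finite order is the reduction
mod `n` of a parabolic homomorphism `ψ : Γ → ℤ`. -/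
theorem exists_parabolic_int_lift [Γ.FiniteIndex] (hneg : (-1 : SL(2, ℤ)) ∈ Γ) (n : ℕ)
    (χ : Additive Γ →+ ZMod n) (hpar : IsParabolicHom Γ χ)
    (hell : ∀ γ : Γ, IsOfFinOrder γ → χ (Additive.ofMul γ) = 0) :
    ∃ ψ : Additive Γ →+ ℤ, IsParabolicHom Γ ψ ∧ ∀ γ, ((ψ γ : ℤ) : ZMod n) = χ γ := by
  classical
  have : Fintype (Cos Γ) := Subgroup.fintypeQuotientOfFiniteIndex
  -- Step 1: the three potentials mod `n`.
  obtain ⟨αb, hαb⟩ := exists_coboundary_cocOf χ S
    (fun r k h => hell _ (isOfFinOrder_conj_pow isOfFinOrder_S r k h))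
  obtain ⟨βb, hβb⟩ := exists_coboundary_cocOf χ U
    (fun r k h => hell _ (isOfFinOrder_conj_pow isOfFinOrder_U r k h))
  obtain ⟨νb, hνb⟩ := exists_coboundary_cocOf χ T
    (fun r k h => hpar _ (by
      change ((r⁻¹ * T ^ k * r : SL(2, ℤ)) : Matrix (Fin 2) (Fin 2) ℤ).trace ^ 2 = 4
      rw [trace_conj_T_pow]; norm_num))
  -- integer lifts
  obtain ⟨α, hα⟩ : ∃ α : Cos Γ → ℤ, ∀ x, ((α x : ℤ) : ZMod n) = αb x :=
    ⟨fun x => (ZMod.intCast_surjective (αb x)).choose,
      fun x => (ZMod.intCast_surjective (αb x)).choose_spec⟩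
  obtain ⟨β₀, hβ₀⟩ : ∃ β₀ : Cos Γ → ℤ, ∀ x, ((β₀ x : ℤ) : ZMod n) = βb x :=
    ⟨fun x => (ZMod.intCast_surjective (βb x)).choose,
      fun x => (ZMod.intCast_surjective (βb x)).choose_spec⟩
  obtain ⟨ν₀, hν₀⟩ : ∃ ν₀ : Cos Γ → ℤ, ∀ x, ((ν₀ x : ℤ) : ZMod n) = νb x :=
    ⟨fun x => (ZMod.intCast_surjective (νb x)).choose,
      fun x => (ZMod.intCast_surjective (νb x)).choose_spec⟩
  have hUx : ∀ x : Cos Γ, U • x = S • T • x := fun x => mul_smul S T x
  -- Step 2: the linear equation holds mod `n`, hence lifts.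
  have hdvd : ∀ x : Cos Γ,
      (n : ℤ) ∣ β₀ (U • x) - β₀ x - α (U • x) + α (T • x) - ν₀ (T • x) + ν₀ x := by
    intro x
    rw [← ZMod.intCast_zmod_eq_zero_iff_dvd]
    push_cast
    rw [hβ₀, hβ₀, hα, hα, hν₀, hν₀]
    have h1 := (cocOf_isCoc χ).apply_T x
    rw [hνb, hβb, hαb, ← hUx] at h1
    linear_combination (-1 : ZMod n) * h1
  obtain ⟨β, ν, hβ, hν, hE⟩ :=
    exists_lift_of_dvd (G := SL(2, ℤ)) (X := Cos Γ) T U closure_T_U (base Γ) n α β₀ ν₀ hdvd
  have hβc : ∀ x, ((β x : ℤ) : ZMod n) = βb x := by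
    intro x
    rw [← hβ₀ x, eq_comm, ZMod.intCast_eq_intCast_iff_dvd_sub]
    exact hβ x
  -- Step 3: the integral cocycle.
  let a' : Cos Γ → ℤ := fun x => α (S • x) - α x
  let b' : Cos Γ → ℤ := fun x => β (U • x) - β x
  have ha' : ∀ x, a' x + a' (S • x) = 0 := by
    intro x
    change α (S • x) - α x + (α (S • S • x) - α (S • x)) = 0
    rw [S_smul_S_smul hneg]; ring
  have hb' : ∀ x, b' x + b' (U • x) + b' (U • U • x) = 0 := by
    intro x
    change β (U • x) - β x + (β (U • U • x) - β (U • x)) +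
      (β (U • U • U • x) - β (U • U • x)) = 0
    rw [U_smul_U_smul_U_smul hneg]; ring
  obtain ⟨c, hc, hcS, hcU⟩ := exists_cocycle hneg a' b' ha' hb'
  refine ⟨homOfCoc c hc, ?_, ?_⟩
  · -- parabolicity
    have hcT : ∀ x, c T x = ν (T • x) - ν x := by
      intro x
      rw [hc.apply_T, hcS, hcU]
      change β (U • x) - β x - (α (S • T • x) - α (T • x)) = _
      rw [← hUx]
      linarith [hE x]
    have hcneg : ∀ x, c (-1) x = 0 := by
      intro x
      rw [← S_mul_S, hc, hcS]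
      have := ha' x
      linarith
    -- elements of trace `2` fixing the base coset
    have key : ∀ g : SL(2, ℤ), (g : Matrix (Fin 2) (Fin 2) ℤ).trace = 2 → g ∈ Γ →
        c g (base Γ) = 0 := by
      intro g htr hgΓ
      obtain ⟨δ, m, hconj⟩ := S21.H86.exists_conj_T_zpow_of_trace_eq_two g htr
      have hg : g = δ * T ^ m * δ⁻¹ := by rw [← hconj]; group
      have hfix : T ^ m • (δ⁻¹ • base Γ) = δ⁻¹ • base Γ := by
        have h1 : g • base Γ = base Γ := smul_base_of_mem hgΓ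
        rw [hg, mul_smul, mul_smul] at h1
        exact (smul_eq_iff_eq_inv_smul δ).mp h1
      have h2 : c (δ * δ⁻¹) (base Γ) = c δ (δ⁻¹ • base Γ) + c δ⁻¹ (base Γ) := hc _ _ _
      rw [mul_inv_cancel, hc.one] at h2
      rw [hg, hc, hc, hfix, coc_zpow_of_coboundary hc T ν hcT, hfix]
      linarith
    intro γ hγ
    change c (γ : SL(2, ℤ)) (base Γ) = 0
    have h2 : ((γ : SL(2, ℤ)) : Matrix (Fin 2) (Fin 2) ℤ).trace = 2 ∨
        ((γ : SL(2, ℤ)) : Matrix (Fin 2) (Fin 2) ℤ).trace = -2 := by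
      have : (((γ : SL(2, ℤ)) : Matrix (Fin 2) (Fin 2) ℤ).trace - 2) *
          (((γ : SL(2, ℤ)) : Matrix (Fin 2) (Fin 2) ℤ).trace + 2) = 0 := by
        linear_combination hγ
      rcases mul_eq_zero.mp this with h | h
      · left; linarith
      · right; linarith
    rcases h2 with h | h
    · exact key _ h γ.2
    · have h' : ((-(γ : SL(2, ℤ)) : SL(2, ℤ)) : Matrix (Fin 2) (Fin 2) ℤ).trace = 2 := by
        rw [Matrix.SpecialLinearGroup.coe_neg, Matrix.trace_neg, h]; rfl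
      have hmem : -(γ : SL(2, ℤ)) ∈ Γ := by
        have := Γ.mul_mem hneg γ.2
        rwa [neg_one_mul] at this
      have h3 : (γ : SL(2, ℤ)) = (-1) * (-(γ : SL(2, ℤ))) := by simp
      rw [h3, hc, hcneg, key _ h' hmem, add_zero]
  · -- reduction
    have heq : (fun g x => ((c g x : ℤ) : ZMod n)) = cocOf Γ χ := by
      refine (hc.map (Int.castAddHom (ZMod n))).ext_S_U (cocOf_isCoc χ) ?_ ?_
      · funext x
        change (((c S x : ℤ)) : ZMod n) = cocOf Γ χ S x
        rw [hcS, hαb]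
        change ((α (S • x) - α x : ℤ) : ZMod n) = _
        push_cast
        rw [hα, hα]
      · funext x
        change (((c U x : ℤ)) : ZMod n) = cocOf Γ χ U x
        rw [hcU, hβb]
        change ((β (U • x) - β x : ℤ) : ZMod n) = _
        push_cast
        rw [hβc, hβc]
    have h4 : (Int.castAddHom (ZMod n)).comp (homOfCoc c hc) = χ := by
      rw [← homOfCoc_map c hc (Int.castAddHom (ZMod n)),
        homOfCoc_congr (hc.map (Int.castAddHom (ZMod n))) (cocOf_isCoc χ) heq, homOfCoc_cocOf]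
    exact fun γ => DFunLike.congr_fun h4 γ

/-! ### Companions: the reduction map `L → V` -/

/-- Post-composition preserves parabolicity. -/
theorem isParabolicHom_comp {B : Type*} [AddCommGroup B] (f : A →+ B) {ψ : Additive Γ →+ A}
    (hψ : IsParabolicHom Γ ψ) : IsParabolicHom Γ (f.comp ψ) := fun γ hγ => by
  change f (ψ (Additive.ofMul γ)) = 0
  rw [hψ γ hγ, map_zero]

/-- A homomorphism to a torsion-free group kills the elements of finite order. -/
theorem apply_eq_zero_of_isOfFinOrder [IsAddTorsionFree A] (ψ : Additive Γ →+ A) (γ : Γ)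
    (hγ : IsOfFinOrder γ) : ψ (Additive.ofMul γ) = 0 := by
  obtain ⟨m, hm, h⟩ := isOfFinOrder_iff_pow_eq_one.mp hγ
  have h1 : m • ψ (Additive.ofMul γ) = 0 := by
    rw [← map_nsmul, ← ofMul_pow, h, ofMul_one, map_zero]
  exact (nsmul_eq_zero_iff_right hm.ne').mp h1

/-- The reduction of an integral homomorphism kills the elements of finite order. -/
theorem cast_apply_eq_zero_of_isOfFinOrder (n : ℕ) (ψ : Additive Γ →+ ℤ) (γ : Γ)
    (hγ : IsOfFinOrder γ) : (Int.castAddHom (ZMod n)).comp ψ (Additive.ofMul γ) = 0 := by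
  change ((ψ (Additive.ofMul γ) : ℤ) : ZMod n) = 0
  rw [apply_eq_zero_of_isOfFinOrder ψ γ hγ, Int.cast_zero]

/-- **Kernel of the reduction**: an integral parabolic homomorphism which vanishes mod `n` is
`n` times an integral parabolic homomorphism. -/
theorem exists_eq_nsmul_of_cast_eq_zero (n : ℕ) (ψ : Additive Γ →+ ℤ) (hψ : IsParabolicHom Γ ψ)
    (h : ∀ γ, ((ψ γ : ℤ) : ZMod n) = 0) :
    ∃ ψ' : Additive Γ →+ ℤ, IsParabolicHom Γ ψ' ∧ ψ = n • ψ' := by
  have hd : ∀ γ, (n : ℤ) ∣ ψ γ := fun γ => (ZMod.intCast_zmod_eq_zero_iff_dvd _ _).mp (h γ)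
  refine ⟨⟨⟨fun γ => ψ γ / (n : ℤ), by simp⟩, fun γ γ' => ?_⟩, ?_, ?_⟩
  · change ψ (γ + γ') / (n : ℤ) = ψ γ / (n : ℤ) + ψ γ' / (n : ℤ)
    rw [map_add, Int.add_ediv_of_dvd_left (hd γ)]
  · intro γ hγ
    change ψ (Additive.ofMul γ) / (n : ℤ) = 0
    rw [hψ γ hγ, Int.zero_ediv]
  · refine AddMonoidHom.ext fun γ => ?_
    change ψ γ = n • (ψ γ / (n : ℤ))
    rw [nsmul_eq_mul, Int.mul_ediv_cancel' (hd γ)]

/-! ### The case `Γ = Γ₀(M)` -/

theorem neg_one_mem_Gamma0' (M : ℕ) : (-1 : SL(2, ℤ)) ∈ Gamma0 M := by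
  rw [Gamma0_mem]
  simp

/-- **LIFT for `Γ₀(M)`**, in the lattice language `L(M) = parabolicHoms ℤ (Gamma0 M) ℤ`: every
parabolic, torsion-killing `χ : Γ₀(M) → ZMod n` is the reduction of an element of `L(M)`. -/
theorem exists_mem_parabolicHoms_int_lift (M : ℕ) [NeZero M] (n : ℕ)
    (χ : Additive (Gamma0 M) →+ ZMod n) (hpar : IsParabolicHom (Gamma0 M) χ)
    (hell : ∀ γ : Gamma0 M, IsOfFinOrder γ → χ (Additive.ofMul γ) = 0) :
    ∃ ψ ∈ parabolicHoms ℤ (Gamma0 M) ℤ, (Int.castAddHom (ZMod n)).comp ψ = χ := by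
  obtain ⟨ψ, hψ, h⟩ := exists_parabolic_int_lift (neg_one_mem_Gamma0' M) n χ hpar hell
  exact ⟨ψ, hψ, AddMonoidHom.ext h⟩

/-- The image of the reduction map `L(M) → Hom(Γ₀(M), ZMod n)` consists exactly of the parabolic
homomorphisms which kill the elements of finite order. -/
theorem exists_mem_parabolicHoms_int_lift_iff (M : ℕ) [NeZero M] (n : ℕ)
    (χ : Additive (Gamma0 M) →+ ZMod n) :
    (∃ ψ ∈ parabolicHoms ℤ (Gamma0 M) ℤ, (Int.castAddHom (ZMod n)).comp ψ = χ) ↔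
      IsParabolicHom (Gamma0 M) χ ∧
        ∀ γ : Gamma0 M, IsOfFinOrder γ → χ (Additive.ofMul γ) = 0 := by
  constructor
  · rintro ⟨ψ, hψ, rfl⟩
    exact ⟨isParabolicHom_comp _ hψ, fun γ hγ => cast_apply_eq_zero_of_isOfFinOrder n ψ γ hγ⟩
  · rintro ⟨h1, h2⟩
    exact exists_mem_parabolicHoms_int_lift M n χ h1 h2

/-- **Kernel of the reduction map on `L(M)`** is `n L(M)`. -/
theorem mem_nsmul_parabolicHoms_of_cast_eq_zero (M : ℕ) (n : ℕ)
    (ψ : Additive (Gamma0 M) →+ ℤ) (hψ : ψ ∈ parabolicHoms ℤ (Gamma0 M) ℤ)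
    (h : (Int.castAddHom (ZMod n)).comp ψ = 0) :
    ∃ ψ' ∈ parabolicHoms ℤ (Gamma0 M) ℤ, ψ = n • ψ' :=
  exists_eq_nsmul_of_cast_eq_zero n ψ hψ (fun γ => DFunLike.congr_fun h γ)

end

end Fermat.Agent.S41.H79
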