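/-
S41 (level raising), PAIR sub-leaf (S4) = PERF (D6) of the pairing spec (helper79).

Coset model of S16/H97 (`Cos Γ = SL(2,ℤ) ⧸ Γ`, `IsCoc`, `homOfCoc`, `exists_cocycle`), `Γ` of finite
index with `-1 ∈ Γ`.  For a `T`-normalised integral cocycle `c₁` (`c₁ T = 0`) put `P := c₁ S`.
If `p ∣ ∑ x, P x * Q x` for every `U`-potential `Q` of an integral parabolic homomorphism
(`c₂ U = 0`, `c₂ S = Q ∘ S - Q`, `homOfCoc c₂` parabolic), then `homOfCoc c₁ ∈ p • L(Γ)`
(`perf_core`).  This is the non-degeneracy (PERF) of the integral pairing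
`E(φ, ψ) = ∑ x, P_φ x * Q_ψ x` at every prime `p` (`p = 2, 3` and elliptic points included).

Proof: double orthogonal in `(ZMod p)^X`, `exists_coboundary` (PERIOD) over `ZMod p` with the
`T`-invariant test functions `∑_{i<k} δ_{T^i x}`, `exists_lift_of_dvd` (AUG) for the lift of the
test potential, `exists_cocycle` for the test homomorphism, `IsCoc.ext_S_U` for the conclusion.
-/
import Fermat.Agent.S41.H79.Lift

set_option autoImplicit false

open scoped MatrixGroups
open ModularGroup ModularCurve.Period CongruenceSubgroup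
open Fermat.Agent.S16.H97

namespace Fermat.Agent.S41.H79

noncomputable section

variable {Γ : Subgroup SL(2, ℤ)} {A : Type*} [AddCommGroup A]

/-! ### Generalities on cocycles -/

theorem toPerm_pow_apply (g : SL(2, ℤ)) (i : ℕ) (x : Cos Γ) :
    ((MulAction.toPerm g : Equiv.Perm (Cos Γ)) ^ i) x = g ^ i • x := by
  induction i generalizing x with
  | zero => simp
  | succ i ih => rw [pow_succ, Equiv.Perm.mul_apply, ih, MulAction.toPerm_apply, pow_succ, mul_smul]

theorem closure_T_S : Subgroup.closure ({T, S} : Set SL(2, ℤ)) = ⊤ := by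
  rw [Set.pair_comm]
  exact SpecialLinearGroup.SL2Z_generators

/-- The coboundary of a function on the coset space. -/
theorem isCoc_coboundary (n : Cos Γ → A) : IsCoc Γ (fun g x => n (g • x) - n x) := by
  intro g h x
  change n ((g * h) • x) - n x = n (g • h • x) - n (h • x) + (n (h • x) - n x)
  rw [mul_smul]
  abel

theorem isCoc_zero : IsCoc Γ (fun (_ : SL(2, ℤ)) (_ : Cos Γ) => (0 : A)) := by
  intro g h x
  simp

theorem IsCoc_sub {c c' : SL(2, ℤ) → Cos Γ → A} (hc : IsCoc Γ c) (hc' : IsCoc Γ c') :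
    IsCoc Γ (fun g x => c g x - c' g x) := by
  intro g h x
  change c (g * h) x - c' (g * h) x = c g (h • x) - c' g (h • x) + (c h x - c' h x)
  rw [hc, hc']
  abel

/-- **Parabolicity criterion.**  A cocycle which vanishes at `-1` and is a `T`-coboundary at `T`
induces a parabolic homomorphism. -/
theorem isParabolicHom_homOfCoc {c : SL(2, ℤ) → Cos Γ → A} (hc : IsCoc Γ c)
    (hneg : (-1 : SL(2, ℤ)) ∈ Γ) (ν : Cos Γ → A) (hcT : ∀ x, c T x = ν (T • x) - ν x)
    (hcneg : ∀ x, c (-1) x = 0) : IsParabolicHom Γ (homOfCoc c hc) := by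
  have key : ∀ g : SL(2, ℤ), (g : Matrix (Fin 2) (Fin 2) ℤ).trace = 2 → g ∈ Γ →
      c g (base Γ) = 0 := by
    intro g htr hgΓ
    obtain ⟨δ, m, hconj⟩ := S21.H86.exists_conj_T_zpow_of_trace_eq_two g htr
    have hg : g = δ * T ^ m * δ⁻¹ := by rw [← hconj]; group
    have hfix : T ^ m • (δ⁻¹ • base Γ) = δ⁻¹ • base Γ := by
      have h1 : g • base Γ = base Γ := smul_base_of_mem hgΓ
      rw [hg, mul_smul, mul_smul] at h1
      exact (smul_eq_iff_eq_inv_smul δ).mp h1
    have h2 : c (δ * δ⁻¹) (base Γ) = c δ (δ⁻¹ • base Γ) + c δ⁻¹ (base Γ) := hc _ _ _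
    rw [mul_inv_cancel, hc.one] at h2
    rw [hg, hc, hc, hfix, coc_zpow_of_coboundary hc T ν hcT, hfix, sub_self, add_zero, ← h2]
  intro γ hγ
  change c (γ : SL(2, ℤ)) (base Γ) = 0
  have h2 : ((γ : SL(2, ℤ)) : Matrix (Fin 2) (Fin 2) ℤ).trace = 2 ∨
      ((γ : SL(2, ℤ)) : Matrix (Fin 2) (Fin 2) ℤ).trace = -2 := by
    have : (((γ : SL(2, ℤ)) : Matrix (Fin 2) (Fin 2) ℤ).trace - 2) *
        (((γ : SL(2, ℤ)) : Matrix (Fin 2) (Fin 2) ℤ).trace + 2) = 0 := by
      linear_combination hγ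
    rcases mul_eq_zero.mp this with h | h
    · left; linarith
    · right; linarith
  rcases h2 with h | h
  · exact key _ h γ.2
  · have h' : ((-(γ : SL(2, ℤ)) : SL(2, ℤ)) : Matrix (Fin 2) (Fin 2) ℤ).trace = 2 := by
      rw [Matrix.SpecialLinearGroup.coe_neg, Matrix.trace_neg, h]; rfl
    have hmem : -(γ : SL(2, ℤ)) ∈ Γ := by
      have := Γ.mul_mem hneg γ.2
      rwa [neg_one_mul] at this
    have h3 : (γ : SL(2, ℤ)) = (-1) * (-(γ : SL(2, ℤ))) := by simp
    rw [h3, hc, hcneg, key _ h' hmem, add_zero]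

/-- An integral cocycle vanishes at `-1`. -/
theorem coc_neg_one_int {c : SL(2, ℤ) → Cos Γ → ℤ} (hc : IsCoc Γ c)
    (hneg : (-1 : SL(2, ℤ)) ∈ Γ) (x : Cos Γ) : c (-1) x = 0 := by
  have h := hc (-1) (-1) x
  rw [show (-1 : SL(2, ℤ)) * -1 = 1 by simp, hc.one, neg_one_smul_cos hneg] at h
  linarith

/-- **Test homomorphisms.**  Every `Q` with `Q ∘ S - Q` a `T`-coboundary is the `U`-potential of
an integral parabolic homomorphism. -/
theorem exists_cocycle_of_potential (hneg : (-1 : SL(2, ℤ)) ∈ Γ) (Q η : Cos Γ → ℤ)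
    (hQ : ∀ x, Q (S • x) - Q x = η (T • x) - η x) :
    ∃ (c₂ : SL(2, ℤ) → Cos Γ → ℤ) (hc₂ : IsCoc Γ c₂), c₂ U = 0 ∧
      (∀ x, c₂ S x = Q (S • x) - Q x) ∧ IsParabolicHom Γ (homOfCoc c₂ hc₂) := by
  obtain ⟨c, hc, hcS, hcU⟩ := exists_cocycle hneg (fun x => Q (S • x) - Q x) (0 : Cos Γ → ℤ)
    (by
      intro x
      change Q (S • x) - Q x + (Q (S • S • x) - Q (S • x)) = 0
      rw [S_smul_S_smul hneg]; ring)
    (by intro x; simp)
  refine ⟨c, hc, hcU, fun x => by rw [hcS], ?_⟩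
  refine isParabolicHom_homOfCoc hc hneg (fun x => -η (T • x)) (fun x => ?_)
    (fun x => coc_neg_one_int hc hneg x)
  rw [hc.apply_T, hcS, hcU]
  change (0 : ℤ) - (Q (S • T • x) - Q (T • x)) = -η (T • T • x) - -η (T • x)
  rw [hQ (T • x)]
  ring

/-! ### The mod `p` linear algebra -/

open Classical in
/-- **Core of PERF.**  If `p ∣ ⟨P, Q⟩` for all `Q` such that `Q ∘ S - Q` is a `T`-coboundary, then
`P ≡ n ∘ S - n` mod `p` for a `T`-invariant `n`. -/
theorem exists_invariant_of_forall_dvd [Fintype (Cos Γ)] (hneg : (-1 : SL(2, ℤ)) ∈ Γ) (p : ℕ)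
    [Fact p.Prime] (P : Cos Γ → ℤ)
    (h : ∀ Q η : Cos Γ → ℤ, (∀ x, Q (S • x) - Q x = η (T • x) - η x) →
      (p : ℤ) ∣ ∑ x, P x * Q x) :
    ∃ n : Cos Γ → ℤ, (∀ x, n (T • x) = n x) ∧ ∀ x, (p : ℤ) ∣ P x - (n (S • x) - n x) := by
  let I : Submodule (ZMod p) (Cos Γ → ZMod p) :=
    { carrier := {n | ∀ x, n (T • x) = n x}
      zero_mem' := fun x => rfl
      add_mem' := fun {a b} ha hb x => by
        change a (T • x) + b (T • x) = a x + b x
        rw [ha x, hb x]
      smul_mem' := fun c a ha x => by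
        change c • a (T • x) = c • a x
        rw [ha x] }
  let D : (Cos Γ → ZMod p) →ₗ[ZMod p] (Cos Γ → ZMod p) :=
    { toFun := fun n x => n (S • x) - n x
      map_add' := fun a b => by funext x; simp only [Pi.add_apply]; ring
      map_smul' := fun c a => by
        funext x; simp only [Pi.smul_apply, smul_eq_mul, RingHom.id_apply]; ring }
  have hD : ∀ (n : Cos Γ → ZMod p) (x : Cos Γ), D n x = n (S • x) - n x := fun n x => rfl
  let Pb : Cos Γ → ZMod p := fun x => ((P x : ℤ) : ZMod p)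
  have hmem : Pb ∈ I.map D := by
    by_contra hPb
    obtain ⟨f, hf1, hf2⟩ := Submodule.exists_le_ker_of_notMem hPb
    let Qb : Cos Γ → ZMod p := fun x => f fun j => if x = j then 1 else 0
    have hfsum : ∀ v : Cos Γ → ZMod p, f v = ∑ x, v x * Qb x := fun v =>
      LinearMap.pi_apply_eq_sum_univ f v
    -- orthogonality to the image of the invariants
    have key1 : ∀ n : Cos Γ → ZMod p, (∀ x, n (T • x) = n x) →
        ∑ x, n x * (Qb (S • x) - Qb x) = 0 := by
      intro n hn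
      have h1 : f (D n) = 0 := hf2 (Submodule.mem_map_of_mem (show n ∈ I from hn))
      rw [hfsum] at h1
      have h2 : ∑ x, n (S • x) * Qb x = ∑ x, n x * Qb (S • x) := by
        rw [← Equiv.sum_comp (MulAction.toPerm (S : SL(2, ℤ))) (fun x => n (S • x) * Qb x)]
        refine Finset.sum_congr rfl fun x _ => ?_
        rw [MulAction.toPerm_apply, S_smul_S_smul hneg]
      have h3 : ∑ x, n x * (Qb (S • x) - Qb x) = ∑ x, D n x * Qb x := by
        simp only [hD, mul_sub, sub_mul, Finset.sum_sub_distrib, h2]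
      rw [h3, h1]
    -- closed orbit sums vanish
    have key2 : ∀ (x : Cos Γ) (k : ℕ), T ^ k • x = x →
        ∑ i ∈ Finset.range k, (Qb (S • T ^ i • x) - Qb (T ^ i • x)) = 0 := by
      intro x k hk
      let n : Cos Γ → ZMod p := fun y => ∑ i ∈ Finset.range k, if y = T ^ i • x then 1 else 0
      have hn : ∀ y, n (T • y) = n y := by
        intro y
        change (∑ i ∈ Finset.range k, if T • y = T ^ i • x then (1 : ZMod p) else 0) =
          ∑ i ∈ Finset.range k, if y = T ^ i • x then (1 : ZMod p) else 0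
        cases k with
        | zero => simp
        | succ k =>
          rw [Finset.sum_range_succ', Finset.sum_range_succ]
          congr 1
          · refine Finset.sum_congr rfl fun i _ => ?_
            have : (T • y = T ^ (i + 1) • x) ↔ (y = T ^ i • x) := by
              rw [pow_succ', mul_smul]
              exact ⟨fun h => smul_left_cancel T h, fun h => by rw [h]⟩
            simp only [this]
          · have : (T • y = T ^ 0 • x) ↔ (y = T ^ k • x) := by
              rw [pow_zero, one_smul]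
              constructor
              · intro h
                apply smul_left_cancel T
                rw [h, ← mul_smul, ← pow_succ', hk]
              · intro h
                rw [h, ← mul_smul, ← pow_succ', hk]
            simp only [this]
      have h1 := key1 n hn
      have h2 : ∀ g : Cos Γ → ZMod p, ∑ y, n y * g y = ∑ i ∈ Finset.range k, g (T ^ i • x) := by
        intro g
        change ∑ y, (∑ i ∈ Finset.range k, if y = T ^ i • x then (1 : ZMod p) else 0) * g y = _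
        simp only [Finset.sum_mul]
        rw [Finset.sum_comm]
        refine Finset.sum_congr rfl fun i _ => ?_
        simp
      rw [h2] at h1
      exact h1
    obtain ⟨hb, hhb⟩ := exists_coboundary (MulAction.toPerm (T : SL(2, ℤ)) : Equiv.Perm (Cos Γ))
      (fun x => Qb (S • x) - Qb x) (by
        intro x k hk
        rw [toPerm_pow_apply] at hk
        simp only [toPerm_pow_apply]
        exact key2 x k hk)
    -- integral lifts
    obtain ⟨Q₀, hQ₀⟩ : ∃ Q₀ : Cos Γ → ℤ, ∀ x, ((Q₀ x : ℤ) : ZMod p) = Qb x :=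
      ⟨fun x => (ZMod.intCast_surjective (Qb x)).choose,
        fun x => (ZMod.intCast_surjective (Qb x)).choose_spec⟩
    obtain ⟨h₀, hh₀⟩ : ∃ h₀ : Cos Γ → ℤ, ∀ x, ((h₀ x : ℤ) : ZMod p) = hb x :=
      ⟨fun x => (ZMod.intCast_surjective (hb x)).choose,
        fun x => (ZMod.intCast_surjective (hb x)).choose_spec⟩
    have hdvd : ∀ x : Cos Γ, (p : ℤ) ∣ Q₀ (S • x) - Q₀ x - (fun _ => (0 : ℤ)) (S • x) +
        (fun _ => (0 : ℤ)) (T • x) - h₀ (T • x) + h₀ x := by
      intro x
      rw [← ZMod.intCast_zmod_eq_zero_iff_dvd]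
      push_cast
      rw [hQ₀, hQ₀, hh₀, hh₀]
      have := hhb x
      change Qb (S • x) - Qb x = hb (T • x) - hb x at this
      linear_combination this
    obtain ⟨Q, η, hQ, -, hE⟩ := exists_lift_of_dvd (G := SL(2, ℤ)) (X := Cos Γ) T S closure_T_S
      (base Γ) p (fun _ => (0 : ℤ)) Q₀ h₀ hdvd
    have h5 := h Q η (fun x => by
      have := hE x
      change Q (S • x) - Q x - 0 + 0 - η (T • x) + η x = 0 at this
      linarith)
    apply hf1
    rw [hfsum]
    have h6 : ((∑ x, P x * Q x : ℤ) : ZMod p) = 0 := (ZMod.intCast_zmod_eq_zero_iff_dvd _ _).mpr h5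
    rw [← h6]
    push_cast
    refine Finset.sum_congr rfl fun x _ => ?_
    have h7 : ((Q x : ℤ) : ZMod p) = Qb x := by
      rw [← hQ₀ x, eq_comm, ZMod.intCast_eq_intCast_iff_dvd_sub]
      exact hQ x
    rw [h7]
  obtain ⟨nb, hnb, hnbP⟩ := hmem
  refine ⟨fun x => ((nb x).val : ℤ), fun x => ?_, fun x => ?_⟩
  · change ((nb (T • x)).val : ℤ) = ((nb x).val : ℤ)
    rw [hnb x]
  change (p : ℤ) ∣ P x - (((nb (S • x)).val : ℤ) - ((nb x).val : ℤ))
  rw [← ZMod.intCast_zmod_eq_zero_iff_dvd]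
  push_cast
  rw [ZMod.natCast_zmod_val, ZMod.natCast_zmod_val]
  have := congrFun hnbP x
  rw [hD] at this
  change ((P x : ℤ) : ZMod p) - (nb (S • x) - nb x) = 0
  rw [this]
  exact sub_self _

/-! ### PERF -/

/-- **PERF, cocycle form.**  `Γ ≤ SL(2,ℤ)` of finite index, `-1 ∈ Γ`, `p` prime.  Let `c₁` be an
integral cocycle with `c₁ T = 0`.  If `p` divides `∑ x, c₁ S x * Q x` for every `U`-potential `Q`
of an integral parabolic homomorphism, then `homOfCoc c₁` is `p` times an integral parabolic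
homomorphism. -/
theorem perf_core [Fintype (Cos Γ)] (hneg : (-1 : SL(2, ℤ)) ∈ Γ) (p : ℕ)
    (hp : p.Prime) (c₁ : SL(2, ℤ) → Cos Γ → ℤ) (hc₁ : IsCoc Γ c₁) (hT : c₁ T = 0)
    (h : ∀ (c₂ : SL(2, ℤ) → Cos Γ → ℤ) (hc₂ : IsCoc Γ c₂) (Q : Cos Γ → ℤ), c₂ U = 0 →
      (∀ x, c₂ S x = Q (S • x) - Q x) → IsParabolicHom Γ (homOfCoc c₂ hc₂) →
      (p : ℤ) ∣ ∑ x, c₁ S x * Q x) :
    ∃ φ' : Additive Γ →+ ℤ, IsParabolicHom Γ φ' ∧ homOfCoc c₁ hc₁ = p • φ' := by
  have : Fact p.Prime := ⟨hp⟩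
  have h' : ∀ Q η : Cos Γ → ℤ, (∀ x, Q (S • x) - Q x = η (T • x) - η x) →
      (p : ℤ) ∣ ∑ x, c₁ S x * Q x := by
    intro Q η hQ
    obtain ⟨c₂, hc₂, hU, hS, hpar⟩ := exists_cocycle_of_potential hneg Q η hQ
    exact h c₂ hc₂ Q hU hS hpar
  obtain ⟨n, hnT, hn⟩ := exists_invariant_of_forall_dvd hneg p (c₁ S) h'
  have hc' : IsCoc Γ (fun g x => c₁ g x - (n (g • x) - n x)) := IsCoc_sub hc₁ (isCoc_coboundary n)
  have heq : (fun g x => (((c₁ g x - (n (g • x) - n x) : ℤ)) : ZMod p)) =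
      fun (_ : SL(2, ℤ)) (_ : Cos Γ) => (0 : ZMod p) := by
    refine (hc'.map (Int.castAddHom (ZMod p))).ext_S_U isCoc_zero ?_ ?_
    · funext x
      exact (ZMod.intCast_zmod_eq_zero_iff_dvd _ _).mpr (hn x)
    · funext x
      refine (ZMod.intCast_zmod_eq_zero_iff_dvd _ _).mpr ?_
      have h1 : c₁ U x = c₁ S (T • x) := by
        have := hc₁ S T x
        rw [hT] at this
        simpa using this
      have h2 : U • x = S • T • x := mul_smul S T x
      rw [h1, h2]
      have h3 := hn (T • x)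
      rw [hnT x] at h3
      exact h3
  have hzero : ∀ γ, ((homOfCoc c₁ hc₁ γ : ℤ) : ZMod p) = 0 := by
    intro γ
    have h1 := congrFun (congrFun heq ((Additive.toMul γ : Γ) : SL(2, ℤ))) (base Γ)
    change ((c₁ ((Additive.toMul γ : Γ) : SL(2, ℤ)) (base Γ) -
      (n (((Additive.toMul γ : Γ) : SL(2, ℤ)) • base Γ) - n (base Γ)) : ℤ) : ZMod p) = 0 at h1
    rw [smul_base_of_mem (Additive.toMul γ).2, sub_self, sub_zero] at h1
    exact h1
  have hpar : IsParabolicHom Γ (homOfCoc c₁ hc₁) :=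
    isParabolicHom_homOfCoc hc₁ hneg 0 (fun x => by rw [hT]; simp)
      (fun x => coc_neg_one_int hc₁ hneg x)
  exact exists_eq_nsmul_of_cast_eq_zero p _ hpar hzero

end

end Fermat.Agent.S41.H79
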